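/-
Project S52 (the 3-5 switch), seam [RED] of `S52/Fam/Seams.lean` (helper17).  Prefix `s52d_`.

  `s52d_red : s52_Red_stmt`

(1) a change of variables over `ℚ` induces a Galois-equivariant isomorphism `E[n] ≅ E'[n]` — for
    ARBITRARY Weierstrass curves (no `Δ ≠ 0`): nonsingularity is transported by the partial
    derivatives (`s52d_nonsingular_iff`), the group law by helper22's `lrvc_*` formulas;
(2) `s52_TorsIso` transports `GaloisRepIsIrreducible`.
-/
import Mathlib
import Fermat.Agent.S52.Fam.Seams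
import Fermat.Agent.LR.NonEis.VarChange

set_option autoImplicit false
set_option linter.unusedSectionVars false

namespace Fermat.Agent.S52

open WeierstrassCurve WeierstrassCurve.Affine WeierstrassCurve.Affine.Point Fermat.Agent.LR

section field

variable {F : Type*} [Field F] (C : VariableChange F) (W : Affine F)

/-- nonsingularity is invariant under a change of variables (no hypothesis on `Δ`). -/
theorem s52d_nonsingular_iff (x y : F) :
    (C • W).toAffine.Nonsingular (lrvc_X C x) (lrvc_Y C x y) ↔ W.Nonsingular x y := by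
  rw [Affine.nonsingular_iff', Affine.nonsingular_iff', lrvc_equation_iff]
  have hv := lrvc_v_ne_zero C
  have h3 : (↑C.u⁻¹ : F) ^ 3 ≠ 0 := pow_ne_zero 3 hv
  have h4 : (↑C.u⁻¹ : F) ^ 4 ≠ 0 := pow_ne_zero 4 hv
  have hY : 2 * lrvc_Y C x y + (C • W).a₁ * lrvc_X C x + (C • W).a₃ =
      (↑C.u⁻¹ : F) ^ 3 * (2 * y + W.a₁ * x + W.a₃) := by
    simp only [variableChange_a₁, variableChange_a₃, lrvc_X, lrvc_Y]
    ring
  have hX : (C • W).a₁ * lrvc_Y C x y -
      (3 * lrvc_X C x ^ 2 + 2 * (C • W).a₂ * lrvc_X C x + (C • W).a₄) =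
      (↑C.u⁻¹ : F) ^ 4 * ((W.a₁ * y - (3 * x ^ 2 + 2 * W.a₂ * x + W.a₄)) +
        C.s * (2 * y + W.a₁ * x + W.a₃)) := by
    simp only [variableChange_a₁, variableChange_a₂, variableChange_a₄, lrvc_X, lrvc_Y]
    ring
  rw [hY, hX]
  refine and_congr_right fun _ => ?_
  constructor
  · rintro (h | h)
    · by_cases hy : 2 * y + W.a₁ * x + W.a₃ = 0
      · left
        rw [hy, mul_zero, add_zero] at h
        exact right_ne_zero_of_mul h
      · exact Or.inr hy
    · exact Or.inr (right_ne_zero_of_mul h)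
  · rintro (h | h)
    · by_cases hy : 2 * y + W.a₁ * x + W.a₃ = 0
      · left
        rw [hy, mul_zero, add_zero]
        exact mul_ne_zero h4 h
      · exact Or.inr (mul_ne_zero h3 hy)
    · exact Or.inr (mul_ne_zero h3 h)

variable [DecidableEq F]

/-- the map on points induced by a change of variables (any Weierstrass curve). -/
def s52d_map {W' : Affine F} (hW : C • W = W') : W.Point → W'.Point
  | .zero => 0
  | .some x y h => .some (lrvc_X C x) (lrvc_Y C x y) (hW ▸ (s52d_nonsingular_iff C W x y).2 h)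

theorem s52d_map_zero {W' : Affine F} (hW : C • W = W') : s52d_map C W hW 0 = 0 := rfl

theorem s52d_map_some {W' : Affine F} (hW : C • W = W') {x y : F} (h : W.Nonsingular x y) :
    s52d_map C W hW (.some x y h) =
      .some (lrvc_X C x) (lrvc_Y C x y) (hW ▸ (s52d_nonsingular_iff C W x y).2 h) := rfl

theorem s52d_map_add {W' : Affine F} (hW : C • W = W') (P Q : W.Point) :
    s52d_map C W hW (P + Q) = s52d_map C W hW P + s52d_map C W hW Q := by
  subst hW
  rcases P with _ | ⟨x₁, y₁, h₁⟩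
  · change s52d_map C W rfl (0 + Q) = 0 + s52d_map C W rfl Q
    rw [zero_add, zero_add]
  rcases Q with _ | ⟨x₂, y₂, h₂⟩
  · change s52d_map C W rfl (Point.some x₁ y₁ h₁ + 0) =
      s52d_map C W rfl (Point.some x₁ y₁ h₁) + 0
    rw [add_zero, add_zero]
  by_cases hxy : x₁ = x₂ ∧ y₁ = W.negY x₂ y₂
  · rw [add_of_Y_eq hxy.1 hxy.2, s52d_map_zero, s52d_map_some, s52d_map_some,
      add_of_Y_eq (congrArg _ hxy.1) (by rw [lrvc_negY, hxy.2, hxy.1])]
  · have hxy' : ¬(lrvc_X C x₁ = lrvc_X C x₂ ∧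
        lrvc_Y C x₁ y₁ = (C • W).toAffine.negY (lrvc_X C x₂) (lrvc_Y C x₂ y₂)) := by
      rintro ⟨hx, hy⟩
      have hx0 := lrvc_X_injective C hx
      subst hx0
      rw [lrvc_negY] at hy
      exact hxy ⟨rfl, lrvc_Y_injective C x₁ hy⟩
    rw [add_some hxy, s52d_map_some, s52d_map_some, s52d_map_some, add_some hxy']
    refine (lrvc_some_congr _ _ ?_ ?_).symm
    · rw [lrvc_slope C W h₁.1 h₂.1 hxy, lrvc_addX]
    · rw [lrvc_slope C W h₁.1 h₂.1 hxy, lrvc_addY]

theorem s52d_map_injective {W' : Affine F} (hW : C • W = W') :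
    Function.Injective (s52d_map C W hW) := by
  subst hW
  rintro (_ | ⟨x₁, y₁, h₁⟩) (_ | ⟨x₂, y₂, h₂⟩) h
  · rfl
  · exact absurd h.symm (Point.some_ne_zero _)
  · exact absurd h (Point.some_ne_zero _)
  · rw [s52d_map_some, s52d_map_some] at h
    have hx := lrvc_X_injective C (Point.some.inj h).1
    subst hx
    have hy := lrvc_Y_injective C x₁ (Point.some.inj h).2
    subst hy
    rfl

theorem s52d_map_surjective {W' : Affine F} (hW : C • W = W') :
    Function.Surjective (s52d_map C W hW) := by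
  subst hW
  rintro (_ | ⟨x', y', h'⟩)
  · exact ⟨0, rfl⟩
  · have huv : (↑C.u⁻¹ : F) * (↑C.u : F) = 1 := by
      rw [← Units.val_mul, inv_mul_cancel, Units.val_one]
    set x : F := (↑C.u : F) ^ 2 * x' + C.r with hx
    set y : F := (↑C.u : F) ^ 3 * y' + (↑C.u : F) ^ 2 * C.s * x' + C.t with hy
    have hX : lrvc_X C x = x' := by
      simp only [lrvc_X, hx]
      linear_combination (x' * ((↑C.u⁻¹ : F) * (↑C.u : F) + 1)) * huv
    have hY : lrvc_Y C x y = y' := by
      simp only [lrvc_Y, hx, hy]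
      linear_combination (y' * (((↑C.u⁻¹ : F) * (↑C.u : F)) ^ 2 + (↑C.u⁻¹ : F) * (↑C.u : F) + 1))
        * huv
    have hN : W.Nonsingular x y := by
      rw [← s52d_nonsingular_iff C W, hX, hY]
      exact h'
    refine ⟨.some x y hN, ?_⟩
    rw [s52d_map_some]
    exact lrvc_some_congr _ _ hX hY

end field

section galois

variable (E E' : WeierstrassCurve ℚ) (C₀ : VariableChange ℚ)

/-- the isomorphism `E(ℚ̄) → E'(ℚ̄)` of a change of variables over `ℚ`. -/
noncomputable def s52d_mapQ (hC : C₀ • E = E') : (E⁄s52_Qb).Point → (E'⁄s52_Qb).Point :=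
  s52d_map (C₀.map (algebraMap ℚ s52_Qb)) (E⁄s52_Qb) (lrvc_baseChange_eq E E' C₀ hC)

/-- the additive homomorphism. -/
noncomputable def s52d_homQ (hC : C₀ • E = E') : (E⁄s52_Qb).Point →+ (E'⁄s52_Qb).Point where
  toFun := s52d_mapQ E E' C₀ hC
  map_zero' := rfl
  map_add' := s52d_map_add _ _ _

theorem s52d_homQ_bijective (hC : C₀ • E = E') : Function.Bijective (s52d_homQ E E' C₀ hC) :=
  ⟨s52d_map_injective (C₀.map (algebraMap ℚ s52_Qb)) (E⁄s52_Qb) (lrvc_baseChange_eq E E' C₀ hC),
    s52d_map_surjective (C₀.map (algebraMap ℚ s52_Qb)) (E⁄s52_Qb)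
      (lrvc_baseChange_eq E E' C₀ hC)⟩

theorem s52d_homQ_smul (hC : C₀ • E = E') (σ : s52_G) (P : (E⁄s52_Qb).Point) :
    s52d_homQ E E' C₀ hC (σ • P) = σ • s52d_homQ E E' C₀ hC P := by
  show s52d_mapQ E E' C₀ hC (σ • P) = σ • s52d_mapQ E E' C₀ hC P
  rcases P with _ | ⟨x, y, h⟩
  · rfl
  · rw [algEquiv_smul_def, algEquiv_smul_def, Point.map_some]
    unfold s52d_mapQ
    rw [s52d_map_some, s52d_map_some, Point.map_some]
    exact lrvc_some_congr _ _ (lrvc_X_smul C₀ σ x).symm (lrvc_Y_smul C₀ σ x y).symm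

/-- clause (1) of [RED]. -/
theorem s52d_torsIso (hC : C₀ • E = E') (n : ℕ) : s52_TorsIso E E' n := by
  set f := s52d_homQ E E' C₀ hC with hf
  have hfinj : Function.Injective f := (s52d_homQ_bijective E E' C₀ hC).1
  have hfsurj : Function.Surjective f := (s52d_homQ_bijective E E' C₀ hC).2
  have hfσ : ∀ (σ : s52_G) (P : (E⁄s52_Qb).Point), f (σ • P) = σ • f P :=
    s52d_homQ_smul E E' C₀ hC
  have hmem : ∀ x : s52_Tors E n, f (x : (E⁄s52_Qb).Point) ∈
      Submodule.torsionBy ℤ (E'⁄s52_Qb).Point n := by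
    intro x
    have hx := x.2
    rw [Submodule.mem_torsionBy_iff] at hx ⊢
    rw [← map_zsmul, hx, _root_.map_zero]
  let g0 : s52_Tors E n →+ s52_Tors E' n :=
    { toFun := fun x => ⟨f x, hmem x⟩
      map_zero' := Subtype.ext (_root_.map_zero f)
      map_add' := fun x y => Subtype.ext
        (map_add f (x : (E⁄s52_Qb).Point) (y : (E⁄s52_Qb).Point)) }
  have hg : ∀ x, ((g0 x : s52_Tors E' n) : (E'⁄s52_Qb).Point) = f (x : (E⁄s52_Qb).Point) :=
    fun x => rfl
  have hginj : Function.Injective g0 := by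
    intro x y hxy
    apply Subtype.ext
    apply hfinj
    rw [← hg, ← hg, hxy]
  have hgsurj : Function.Surjective g0 := by
    intro y
    obtain ⟨P, hP⟩ := hfsurj (y : (E'⁄s52_Qb).Point)
    have hPmem : P ∈ Submodule.torsionBy ℤ (E⁄s52_Qb).Point n := by
      have hy := y.2
      rw [Submodule.mem_torsionBy_iff] at hy ⊢
      apply hfinj
      rw [map_zsmul, hP, hy, _root_.map_zero]
    exact ⟨⟨P, hPmem⟩, Subtype.ext hP⟩
  refine ⟨AddEquiv.ofBijective g0 ⟨hginj, hgsurj⟩, fun σ x => ?_⟩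
  apply Subtype.ext
  exact hfσ σ x

end galois

/-- clause (2) of [RED]: `s52_TorsIso` transports irreducibility. -/
theorem s52d_irreducible (E E' : WeierstrassCurve.Affine ℚ) (n : ℕ) (h : s52_TorsIso E E' n)
    (hirr : Affine.Point.GaloisRepIsIrreducible (K := s52_Qb) ℚ E n) :
    Affine.Point.GaloisRepIsIrreducible (K := s52_Qb) ℚ E' n := by
  obtain ⟨φ, hφ⟩ := h
  let g : s52_Tors E n →ₗ[ZMod n] s52_Tors E' n := φ.toAddMonoidHom.toZModLinearMap n
  have hg : ∀ x, g x = φ x := fun x => rfl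
  have hginj : Function.Injective g := φ.injective
  have hgsurj : Function.Surjective g := φ.surjective
  obtain ⟨hnt, hsub⟩ := hirr
  refine ⟨?_, ?_⟩
  · have := hnt
    exact hginj.nontrivial
  · intro N hN
    have hN' : IsGaloisStable (K := s52_Qb) ℚ (N.comap g) := by
      intro σ x hx
      rw [Submodule.mem_comap] at hx ⊢
      rw [hg, hφ]
      exact hN σ _ hx
    rcases hsub (N.comap g) hN' with h | h
    · left
      rw [eq_bot_iff]
      intro y hy
      obtain ⟨x, rfl⟩ := hgsurj y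
      have hx : x ∈ N.comap g := hy
      rw [h, Submodule.mem_bot] at hx
      rw [hx, _root_.map_zero]
      exact Submodule.zero_mem _
    · right
      rw [eq_top_iff]
      intro y _
      obtain ⟨x, rfl⟩ := hgsurj y
      have hx : x ∈ N.comap g := by rw [h]; exact Submodule.mem_top
      exact hx

/-- **[RED]** -/
theorem s52d_red : s52_Red_stmt :=
  ⟨fun E E' ⟨C, hC⟩ n => s52d_torsIso E E' C hC n, s52d_irreducible⟩

end Fermat.Agent.S52
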